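import Fermat.Agent.LT.H19.Par556
import Fermat.Agent.LT.H51.MS1

/-!
# Row LT, tower T8 (`PAR556`): SPEC of the architect (helper19), OFF-MAIN

Tower Prop = the wall leaf `WT.PAR556` of the frozen skeleton origin/helper556@0fa0be5a0, VERBATIM.

    top : CentralEven556 → HeckeSeqC → HoroC → HoroCoeffC → WT.PAR556          (PROVED here)

No Rankin--Selberg, no Bessel function, no Laplacian, no mean value property, no cuspidality, no
Haar measure on the adeles, no strong approximation.  Sub-leaves (all TRUE statements):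

* `H19.CentralEven556` (P-A, ADELIC, scalars only; `LT/H19/Par556.lean`): the `S_p`-eigenvalues are
  the values of an EVEN Dirichlet character.
* `HeckeSeqC` (HSEQ, ARITHMETIC, Mathlib only): the Hecke-multiplicative sequence with prescribed
  `a_p`, `b_p`.
* `HoroC` (MS4b, ADELIC, on `LT/H556/A0.lean` + MS2/MS3 of helper864): for every base point `g₀` the
  finite family of horocycle functions `U κ x y = φ (n(x)_∞ a(y)_∞ d(κ) g₀)`, `κ ∈ (ℤ/M)ˣ`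
  (`d(κ)` = diagonal twist at the places dividing `M`), is a `HoroData`: continuous, bounded,
  `M`-periodic in `x`, and satisfies the FUNCTION FORM of the Hecke relation at every `p ∤ M`.
* `HoroCoeffC` (MS4a, CLASSICAL, Mathlib + `LT/H51/MS1.lean`): Fourier coefficients in `x` of the
  `χ`-isotypic sums of a `HoroData` with a non-constant member are a `H51.CoeffData` with a
  non-vanishing coefficient of positive index.
* PROVED inputs: `H51.CoeffData.msBound` (MS1, helper51), `nonconst_of_small` (this file: a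
  `HoroData` with ONE prime `p ≥ 7`, `‖A p‖ ≤ 2`, `‖B p‖ ≤ 1` and a non-zero value has a member
  which is not constant in `x`), `H19.parArith_weak` (PAR-ARITH), `evenFacts` (this file: the
  arithmetic of `BotData`).

Alternative inputs (not needed by `top`): MS5 (non-constancy from `MeanValueReal`, helper646),
`msCore` of helper467 (= `nonconst_of_small` + `HoroCoeffC` + MS1 + HSEQ for `b = 1`).
-/

set_option autoImplicit false

open AutomorphicForm IsDedekindDomain NumberField FLT.ExplicitLift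
open scoped MatrixGroups

noncomputable section

namespace Fermat.Agent.LT.T8

open Fermat.Agent.Lib.Cheb.Spec Fermat.Agent.Lib.Cheb.SpecQ
open Fermat.Agent.LT.H130 Fermat.Agent.LT.H556 Fermat.Agent.LT.H19

/-! ## Definitions -/

/-- The `T_p`-eigenvalues (unitary normalisation) of `π` as a function on `ℕ`. -/
def aOf (π : HeckeEigensystem ℚ ℂ) : ℕ → ℂ := by
  classical
  exact fun p => if hp : p.Prime then π.a (ratPrime ⟨p, hp⟩) else 0

/-- The `S_p`-eigenvalues of `π` as a function on `ℕ`. -/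
def bOf (π : HeckeEigensystem ℚ ℂ) : ℕ → ℂ := by
  classical
  exact fun p => if hp : p.Prime then π.b (ratPrime ⟨p, hp⟩) else 0

theorem aOf_prime (π : HeckeEigensystem ℚ ℂ) {p : ℕ} (hp : p.Prime) :
    aOf π p = π.a (ratPrime ⟨p, hp⟩) := by
  unfold aOf
  rw [dif_pos hp]

theorem bOf_prime (π : HeckeEigensystem ℚ ℂ) {p : ℕ} (hp : p.Prime) :
    bOf π p = π.b (ratPrime ⟨p, hp⟩) := by
  unfold bOf
  rw [dif_pos hp]

/-- The class of `p` in `(ℤ/M)ˣ` (`1` if `p` is not prime to `M`). -/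
def unitCls (M p : ℕ) : (ZMod M)ˣ := by
  classical
  exact if h : Nat.Coprime p M then ZMod.unitOfCoprime p h else 1

/-- **Horocycle data** of level `M`: a finite family `U κ : ℝ × ℝ_{>0} → ℂ`, `κ ∈ (ℤ/M)ˣ`, of
bounded functions, separately continuous, `M`-periodic in `x`, with the function form of the Hecke
relation with eigenvalues `√p · A p` and `B p` at the primes `p ∤ M`:

  `∑_{j < p} U (κ p) ((x + j M) / p) (y / p) + B p · U (κ p⁻¹) (p x) (p y) = √p · A p · U κ x y`. -/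
structure HoroData (M : ℕ) (A B : ℕ → ℂ) (U : (ZMod M)ˣ → ℝ → ℝ → ℂ) (C : ℝ) : Prop where
  M_pos : 0 < M
  cont_x : ∀ κ : (ZMod M)ˣ, ∀ y : ℝ, 0 < y → Continuous (fun x : ℝ => U κ x y)
  cont_y : ∀ κ : (ZMod M)ˣ, ∀ x : ℝ, ContinuousOn (fun y : ℝ => U κ x y) (Set.Ioi 0)
  bdd : ∀ κ : (ZMod M)ˣ, ∀ x y : ℝ, 0 < y → ‖U κ x y‖ ≤ C
  periodic : ∀ κ : (ZMod M)ˣ, ∀ x y : ℝ, 0 < y → U κ (x + M) y = U κ x y
  hecke : ∀ p : ℕ, p.Prime → ¬ p ∣ M → ∀ κ : (ZMod M)ˣ, ∀ x y : ℝ, 0 < y →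
    ∑ j ∈ Finset.range p, U (κ * unitCls M p) ((x + j * M) / p) (y / p)
        + B p * U (κ * (unitCls M p)⁻¹) (p * x) (p * y)
      = ((Real.sqrt p : ℝ) : ℂ) * A p * U κ x y

/-! ## The sub-leaves (frozen Props) -/

/-- **HSEQ.**  The Hecke-multiplicative sequence with prescribed eigenvalues. -/
def HeckeSeqC : Prop :=
  ∀ A B : ℕ → ℂ, ∃ a : ℕ → ℂ, a 1 = 1 ∧
    ∀ p : ℕ, p.Prime → ∀ n : ℕ,
      a (p * n) + B p * (if p ∣ n then a (n / p) else 0) = A p * a n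

/-- **MS4b (adelic).**  The horocycle family through an arbitrary base point `g₀`, of a level `M`
divisible by a prescribed `L`. -/
def HoroC : Prop :=
  ∀ (π : HeckeEigensystem ℚ ℂ) (φ : A0.G ℚ → ℂ), A0.IsSph0CuspFormFor π φ →
    ∀ (g₀ : A0.G ℚ) (L : ℕ), L ≠ 0 →
      ∃ (M : ℕ) (U : (ZMod M)ˣ → ℝ → ℝ → ℂ) (C : ℝ),
        L ∣ M ∧ HoroData M (aOf π) (bOf π) U C ∧ U 1 0 1 = φ g₀

/-- **MS4a (classical).**  Fourier coefficients of the `χ`-isotypic sums of a horocycle family. -/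
def HoroCoeffC : Prop :=
  ∀ (M : ℕ) (A B : ℕ → ℂ) (U : (ZMod M)ˣ → ℝ → ℝ → ℂ) (C : ℝ) (a : ℕ → ℂ),
    HoroData M A B U C → a 1 = 1 →
    (∀ p : ℕ, p.Prime → ¬ p ∣ M → ∀ n : ℕ,
      a (p * n) + B p * (if p ∣ n then a (n / p) else 0) = A p * a n) →
    (∃ (κ : (ZMod M)ˣ) (x x' y : ℝ), 0 < y ∧ U κ x y ≠ U κ x' y) →
    ∃ (χ : ℕ → ℂ) (c : ℕ → ℝ → ℂ) (M₁ : ℝ),
      Fermat.Agent.LT.H51.CoeffData M a B χ c M₁ ∧
      ∃ k : ℕ, 0 < k ∧ ∃ y : ℝ, 0 < y ∧ c k y ≠ 0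

/-! ## Non-constancy from one small eigenvalue (PROVED) -/

theorem unitCls_coe {M p : ℕ} (h : Nat.Coprime p M) :
    ((unitCls M p : (ZMod M)ˣ) : ZMod M) = (p : ZMod M) := by
  unfold unitCls
  rw [dif_pos h]
  rfl

/-- A horocycle family with a non-zero value and ONE prime `p ≥ 7`, `p ∤ M`, with `‖A p‖ ≤ 2` and
`‖B p‖ ≤ 1` has a member which is not constant in `x`: otherwise the Hecke relation at `p` gives
`p · s ≤ (2 √p + 1) · s` for `s = sup ‖U‖`. -/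
theorem nonconst_of_small {M : ℕ} {A B : ℕ → ℂ} {U : (ZMod M)ˣ → ℝ → ℝ → ℂ} {C : ℝ}
    (D : HoroData M A B U C)
    (hne : ∃ (κ : (ZMod M)ˣ) (x y : ℝ), 0 < y ∧ U κ x y ≠ 0)
    (hsmall : ∃ p : ℕ, p.Prime ∧ 7 ≤ p ∧ ¬ p ∣ M ∧ ‖A p‖ ≤ 2 ∧ ‖B p‖ ≤ 1) :
    ∃ (κ : (ZMod M)ˣ) (x x' y : ℝ), 0 < y ∧ U κ x y ≠ U κ x' y := by
  by_contra hcon
  have hconst : ∀ (κ : (ZMod M)ˣ) (x x' y : ℝ), 0 < y → U κ x y = U κ x' y := by
    intro κ x x' y hy
    by_contra h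
    exact hcon ⟨κ, x, x', y, hy, h⟩
  obtain ⟨p, hp, hp7, hpM, hA, hB⟩ := hsmall
  obtain ⟨κ₀, x₀, y₀, hy₀, hU₀⟩ := hne
  -- the set of values
  set T : Set ℝ := {r | ∃ (κ : (ZMod M)ˣ) (y : ℝ), 0 < y ∧ r = ‖U κ 0 y‖} with hT
  have hTne : T.Nonempty := ⟨_, κ₀, y₀, hy₀, rfl⟩
  have hTbdd : BddAbove T := ⟨C, by rintro r ⟨κ, y, hy, rfl⟩; exact D.bdd κ 0 y hy⟩
  set s : ℝ := sSup T with hs
  have hle : ∀ (κ : (ZMod M)ˣ) (y : ℝ), 0 < y → ‖U κ 0 y‖ ≤ s := fun κ y hy =>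
    le_csSup hTbdd ⟨κ, y, hy, rfl⟩
  have hs0 : 0 ≤ s := le_trans (norm_nonneg _) (hle κ₀ y₀ hy₀)
  have hp0 : (0 : ℝ) < p := Nat.cast_pos.mpr hp.pos
  have hsq : Real.sqrt p * Real.sqrt p = p := Real.mul_self_sqrt hp0.le
  have hsqpos : 0 < Real.sqrt p := Real.sqrt_pos.mpr hp0
  -- the key inequality
  have hkey : ∀ (κ : (ZMod M)ˣ) (y : ℝ), 0 < y → (p : ℝ) * ‖U κ 0 y‖ ≤ (2 * Real.sqrt p + 1) * s := by
    intro κ y hy
    have hpy : 0 < (p : ℝ) * y := mul_pos hp0 hy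
    have h := D.hecke p hp hpM (κ * (unitCls M p)⁻¹) 0 ((p : ℝ) * y) hpy
    have e1 : κ * (unitCls M p)⁻¹ * unitCls M p = κ := by
      rw [mul_assoc, inv_mul_cancel, mul_one]
    have e2 : (p : ℝ) * y / p = y := by field_simp
    rw [e1, e2] at h
    have hsum : ∑ j ∈ Finset.range p, U κ ((0 + (j : ℝ) * M) / p) y = (p : ℂ) * U κ 0 y := by
      have hc : ∀ j ∈ Finset.range p, U κ ((0 + (j : ℝ) * M) / p) y = U κ 0 y :=
        fun j _ => hconst κ ((0 + (j : ℝ) * M) / p) 0 y hy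
      rw [Finset.sum_congr rfl hc, Finset.sum_const, Finset.card_range, nsmul_eq_mul]
    rw [hsum] at h
    have h' : (p : ℂ) * U κ 0 y
        = ((Real.sqrt p : ℝ) : ℂ) * A p * U (κ * (unitCls M p)⁻¹) 0 ((p : ℝ) * y)
          - B p * U (κ * (unitCls M p)⁻¹ * (unitCls M p)⁻¹) ((p : ℝ) * 0) ((p : ℝ) * ((p : ℝ) * y)) := by
      rw [← h]; ring
    have hn : ‖(p : ℂ) * U κ 0 y‖ = (p : ℝ) * ‖U κ 0 y‖ := by
      rw [norm_mul, Complex.norm_natCast]
    rw [← hn, h']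
    refine le_trans (norm_sub_le _ _) ?_
    rw [norm_mul, norm_mul, norm_mul, Complex.norm_real, Real.norm_of_nonneg hsqpos.le]
    have b1 : ‖U (κ * (unitCls M p)⁻¹) 0 ((p : ℝ) * y)‖ ≤ s := hle _ _ hpy
    have b2 : ‖U (κ * (unitCls M p)⁻¹ * (unitCls M p)⁻¹) ((p : ℝ) * 0) ((p : ℝ) * ((p : ℝ) * y))‖
        ≤ s := by
      rw [mul_zero]
      exact hle _ _ (mul_pos hp0 hpy)
    have t1 : Real.sqrt p * ‖A p‖ * ‖U (κ * (unitCls M p)⁻¹) 0 ((p : ℝ) * y)‖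
        ≤ Real.sqrt p * 2 * s := by
      have := mul_le_mul (mul_le_mul_of_nonneg_left hA hsqpos.le) b1 (norm_nonneg _)
        (by positivity)
      exact this
    have t2 : ‖B p‖ * ‖U (κ * (unitCls M p)⁻¹ * (unitCls M p)⁻¹) ((p : ℝ) * 0)
        ((p : ℝ) * ((p : ℝ) * y))‖ ≤ 1 * s :=
      mul_le_mul hB b2 (norm_nonneg _) zero_le_one
    linarith
  -- `p s ≤ (2 √p + 1) s`
  have hsup : (p : ℝ) * s ≤ (2 * Real.sqrt p + 1) * s := by
    have : s ≤ (2 * Real.sqrt p + 1) * s / p := by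
      apply csSup_le hTne
      rintro r ⟨κ, y, hy, rfl⟩
      rw [le_div_iff₀ hp0, mul_comm]
      exact hkey κ y hy
    rw [le_div_iff₀ hp0] at this
    linarith
  -- `2 √p + 1 < p` for `p ≥ 7`
  have hp7' : (7 : ℝ) ≤ p := by exact_mod_cast hp7
  have hlt : 2 * Real.sqrt p + 1 < p := by
    have h3 : Real.sqrt p < (p - 1) / 2 := by
      rw [Real.sqrt_lt' (by linarith)]
      nlinarith
    linarith
  have hs_zero : s = 0 := by
    by_contra hne0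
    have hspos : 0 < s := lt_of_le_of_ne hs0 (Ne.symm hne0)
    nlinarith
  have : ‖U κ₀ x₀ y₀‖ ≤ 0 := by
    have h1 := hle κ₀ y₀ hy₀
    rw [hs_zero] at h1
    rw [hconst κ₀ x₀ 0 y₀ hy₀]
    exact h1
  exact hU₀ (norm_le_zero_iff.mp this)

/-! ## The arithmetic of `BotData` (PROVED) -/

/-- From `Hyp`, `BotData` and P-A: a level `N₀` outside of which `π.b = 1`, `π.a = 2` at the primes
that split completely and `2 ≤ ‖π.a‖² ≤ 4` at the primes inert in `ℚ(√-3)`. -/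
theorem evenFacts (hA : CentralEven556) {ρ : GQ →* GL (Fin 2) (ZMod 3)}
    {Ψ : GL (Fin 2) (ZMod 3) →* GL (Fin 2) (ℤ√(-2))} {ι : ℤ√(-2) →+* ℂ} (hyp : LTB.Hyp ρ Ψ)
    (π : HeckeEigensystem ℚ ℂ) (hsph : A0.IsCuspAdelicSph0 ℚ π) (hBot : BotData ρ Ψ ι π) :
    ∃ N₀ : ℕ, N₀ ≠ 0 ∧ 3 ∣ N₀ ∧
      (∀ p : ℕ, ∀ hp : p.Prime, ¬ p ∣ N₀ → π.b (ratPrime ⟨p, hp⟩) = 1) ∧
      (∀ p : ℕ, ∀ hp : p.Prime, ¬ p ∣ N₀ → ∀ A : ValuationSubring Qb, A.LiesOverPrime p →
        ∀ σ : GQ, A.IsFrobeniusAt σ p → ρ σ = 1 → π.a (ratPrime ⟨p, hp⟩) = 2) ∧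
      (∀ p : ℕ, ∀ hp : p.Prime, ¬ p ∣ N₀ → ∀ A : ValuationSubring Qb, A.LiesOverPrime p →
        ∀ σ : GQ, A.IsFrobeniusAt σ p → Matrix.GeneralLinearGroup.det (ρ σ) ≠ 1 →
          2 ≤ ‖π.a (ratPrime ⟨p, hp⟩)‖ ^ 2 ∧ ‖π.a (ratPrime ⟨p, hp⟩)‖ ^ 2 ≤ 4) ∧
      (∀ p : ℕ, p.Prime → ¬ p ∣ N₀ → ∀ A : ValuationSubring Qb, A.LiesOverPrime p →
        ∀ σ : GQ, A.IsFrobeniusAt σ p →
          ((Matrix.GeneralLinearGroup.det (ρ σ) : (ZMod 3)ˣ) : ZMod 3) = (p : ZMod 3)) := by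
  classical
  obtain ⟨N₁, χ, hN₁, hχ, hb⟩ := hA π hsph
  obtain ⟨S, hS⟩ := hBot
  set P : ℕ := ∏ p ∈ S, (if p = 0 then 1 else p) with hP
  have hPne : P ≠ 0 := by
    rw [hP]
    refine Finset.prod_ne_zero_iff.mpr (fun p _ => ?_)
    split_ifs with h0
    · exact one_ne_zero
    · exact h0
  have hSdvd : ∀ p ∈ S, p ≠ 0 → p ∣ P := by
    intro p hp h0
    have := Finset.dvd_prod_of_mem (fun p => if p = 0 then 1 else p) hp
    simpa [h0] using this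
  set N : ℕ := N₁ * P with hNdef
  have hN : N ≠ 0 := mul_ne_zero hN₁ hPne
  have hgood : ∀ p : ℕ, p.Prime → ¬ p ∣ 3 * N → p ≠ 3 ∧ ¬ p ∣ N₁ ∧ p ∉ S := by
    intro p hp hpN
    refine ⟨?_, ?_, ?_⟩
    · rintro rfl
      exact hpN (dvd_mul_right 3 N)
    · intro h
      exact hpN (Dvd.dvd.mul_left (h.mul_right P) 3)
    · intro h
      exact hpN (Dvd.dvd.mul_left (Dvd.dvd.mul_left (hSdvd p h hp.ne_zero) N₁) 3)
  have hdetF : ∀ p : ℕ, p.Prime → p ≠ 3 → ∀ A : ValuationSubring Qb, A.LiesOverPrime p →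
      ∀ σ : GQ, A.IsFrobeniusAt σ p →
        ((Matrix.GeneralLinearGroup.det (ρ σ) : (ZMod 3)ˣ) : ZMod 3) = (p : ZMod 3) := by
    intro p hp hp3 A hA' σ hσ
    rw [hyp.det σ]
    exact modThree_frob19 hp hp3 A hA' σ hσ
  have hbsplit : ∀ p : ℕ, ∀ hp : p.Prime, ¬ p ∣ 3 * N → (p : ZMod 3) = 1 →
      π.b (ratPrime ⟨p, hp⟩) = 1 := by
    intro p hp hpN hp1
    obtain ⟨hp3, -, hpS⟩ := hgood p hp hpN
    obtain ⟨A, σ, hA', hσ⟩ := Fermat.Agent.S54.exists_frobenius p hp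
    have hdet : Matrix.GeneralLinearGroup.det (ρ σ) = 1 := by
      apply Units.ext
      rw [hdetF p hp hp3 A hA' σ hσ, hp1, Units.val_one]
    have hdata := (hS p hp hpS A hA' σ hσ (ratPrime ⟨p, hp⟩)
      (natCast_mem_ratPrime19 ⟨p, hp⟩)).2
    rw [ordSL_of_det hdet, pow_one] at hdata
    exact hdata
  have hb1 : ∀ p : ℕ, ∀ hp : p.Prime, ¬ p ∣ 3 * N → π.b (ratPrime ⟨p, hp⟩) = 1 := by
    intro p hp hpN
    obtain ⟨hp3, hpN₁, -⟩ := hgood p hp hpN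
    by_cases hp1 : (p : ZMod 3) = 1
    · exact hbsplit p hp hpN hp1
    · have hp0 : (p : ZMod 3) ≠ 0 := by
        intro h0
        rw [ZMod.natCast_eq_zero_iff] at h0
        exact hp3 ((Nat.prime_dvd_prime_iff_eq Nat.prime_three hp).mp h0).symm
      have hpm : (p : ZMod 3) = -1 := zmod3_unit_cases _ hp0 hp1
      have : NeZero (3 * N₁) := ⟨mul_ne_zero (by norm_num) hN₁⟩
      have : NeZero N₁ := ⟨hN₁⟩
      have hcop : Nat.Coprime p (3 * N₁) := by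
        rw [Nat.Prime.coprime_iff_not_dvd hp]
        intro h
        rcases (Nat.Prime.dvd_mul hp).mp h with h3 | h3
        · exact hp3 ((Nat.prime_dvd_prime_iff_eq hp Nat.prime_three).mp h3)
        · exact hpN₁ h3
      have hu : IsUnit (-(p : ZMod (3 * N₁))) :=
        ((ZMod.isUnit_iff_coprime p (3 * N₁)).mpr hcop).neg
      obtain ⟨q, hqgt, hq, hqM⟩ := Nat.forall_exists_prime_gt_and_eq_mod hu (3 * N)
      have hqN : ¬ q ∣ 3 * N := fun h =>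
        absurd (Nat.le_of_dvd (Nat.pos_of_ne_zero (mul_ne_zero (by norm_num) hN)) h)
          (not_le.mpr hqgt)
      have hq3 : (q : ZMod 3) = 1 := by
        have := congrArg (ZMod.castHom (dvd_mul_right 3 N₁) (ZMod 3)) hqM
        rw [map_natCast, map_neg, map_natCast, hpm, neg_neg] at this
        exact this
      have hqN₁ : (q : ZMod N₁) = -(p : ZMod N₁) := by
        have := congrArg (ZMod.castHom (dvd_mul_left N₁ 3) (ZMod N₁)) hqM
        rw [map_natCast, map_neg, map_natCast] at this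
        exact this
      have hbq := hbsplit q hq hqN hq3
      have hχq : χ (q : ZMod N₁) = 1 := by
        rw [← hb q hq (hgood q hq hqN).2.1 (ratPrime ⟨q, hq⟩) (natCast_mem_ratPrime19 ⟨q, hq⟩)]
        exact hbq
      have hχp : χ (p : ZMod N₁) = 1 := by
        have e : (q : ZMod N₁) = (-1) * (p : ZMod N₁) := by rw [hqN₁]; ring
        rw [e, map_mul, hχ, one_mul] at hχq
        exact hχq
      rw [hb p hp hpN₁ (ratPrime ⟨p, hp⟩) (natCast_mem_ratPrime19 ⟨p, hp⟩)]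
      exact hχp
  have hι2 : ι 2 = 2 := map_ofNat ι 2
  refine ⟨3 * N, mul_ne_zero (by norm_num) hN, dvd_mul_right 3 N, hb1, ?_, ?_, ?_⟩
  · intro p hp hpN A hA' σ hσ h1
    have hdata := (hS p hp (hgood p hp hpN).2.2 A hA' σ hσ (ratPrime ⟨p, hp⟩)
      (natCast_mem_ratPrime19 ⟨p, hp⟩)).1
    rw [h1, ordSL_of_det (map_one _), pow_one, ordQ8_of_inQ8 inQ8_one, pow_one,
      satakePow_one, satakePow_one] at hdata
    rw [hdata]
    unfold trΨ
    rw [one_pow, map_one]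
    simp only [Units.val_one, Matrix.trace_one, Fintype.card_fin, Nat.cast_ofNat]
    exact hι2
  · intro p hp hpN A hA' σ hσ hdet
    have hdata := (hS p hp (hgood p hp hpN).2.2 A hA' σ hσ (ratPrime ⟨p, hp⟩)
      (natCast_mem_ratPrime19 ⟨p, hp⟩)).1
    rw [ordSL_of_det_ne hdet, ordQ8_of_inQ8 (inQ8_sq_of_det_ne hdet), pow_one, satakePow_one,
      hb1 p hp hpN] at hdata
    set t : ℂ := π.a (ratPrime ⟨p, hp⟩) with ht
    have hsq : t ^ 2 = trΨ Ψ ι ((ρ σ) ^ 2) + 2 := by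
      have e : satakePow 2 t (1 : ℂ) = t * t - 1 * 2 := rfl
      rw [e] at hdata
      rw [← hdata]
      ring
    have hnorm : ‖t‖ ^ 2 = ‖t ^ 2‖ := (norm_pow _ _).symm
    rw [hnorm, hsq]
    have htr : trΨ Ψ ι ((ρ σ) ^ 2) = ι (liftMat Ψ ((ρ σ) * (ρ σ))).trace := by
      rw [pow_two]
      rfl
    rw [htr]
    rcases sq_dichotomy (ρ σ) hdet with h3 | h3
    · rw [h3, liftMat_one, Matrix.trace_one]
      have : ((ι ((Fintype.card (Fin 2) : ℕ) : ℤ√(-2)) : ℂ) + 2) = 4 := by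
        simp only [Fintype.card_fin, Nat.cast_ofNat]
        rw [hι2]
        norm_num
      rw [this]
      norm_num
    · rw [trace_liftMat_eq_zero hyp.lift _ h3, map_zero, zero_add]
      norm_num
  · intro p hp hpN A hA' σ hσ
    exact hdetF p hp (hgood p hp hpN).1 A hA' σ hσ

/-! ## The top of the tower (PROVED) -/

/-- **T8: `PAR556` from its four sub-leaves.** -/
theorem top (hA : CentralEven556) (hSeq : HeckeSeqC) (hH : HoroC) (hCo : HoroCoeffC) :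
    WT.PAR556 := by
  classical
  intro ρ Ψ ι hyp π hsph hBot
  obtain ⟨N₀, hN₀, h3N₀, hb1, ha2, hainert, hdetF⟩ := evenFacts hA hyp π hsph hBot
  obtain ⟨φ, hφ⟩ := hsph
  obtain ⟨g₀, hg₀⟩ := hφ.ne_zero
  obtain ⟨M, U, C, hLM, hD, hlink⟩ := hH π φ hφ g₀ N₀ hN₀
  have hM : M ≠ 0 := hD.M_pos.ne'
  have hnd : ∀ p : ℕ, ¬ p ∣ M → ¬ p ∣ N₀ := fun p h h' => h (h'.trans hLM)
  obtain ⟨a, ha1, hrel⟩ := hSeq (aOf π) (bOf π)
  -- one small eigenvalue
  have hsmall : ∃ p : ℕ, p.Prime ∧ 7 ≤ p ∧ ¬ p ∣ M ∧ ‖aOf π p‖ ≤ 2 ∧ ‖bOf π p‖ ≤ 1 := by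
    have hu : IsUnit (-1 : ZMod 3) := isUnit_one.neg
    obtain ⟨p, hpgt, hp, hp3⟩ := Nat.forall_exists_prime_gt_and_eq_mod hu (M + 7)
    have hpM : ¬ p ∣ M := fun h =>
      absurd (Nat.le_of_dvd (Nat.pos_of_ne_zero hM) h) (by omega)
    obtain ⟨A, σ, hA', hσ⟩ := Fermat.Agent.S54.exists_frobenius p hp
    have hdet : Matrix.GeneralLinearGroup.det (ρ σ) ≠ 1 := by
      intro h1
      have := hdetF p hp (hnd p hpM) A hA' σ hσ
      rw [h1, Units.val_one, hp3] at this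
      revert this
      decide
    have hb := (hainert p hp (hnd p hpM) A hA' σ hσ hdet).2
    refine ⟨p, hp, by omega, hpM, ?_, ?_⟩
    · rw [aOf_prime π hp]
      have h0 := norm_nonneg (π.a (ratPrime ⟨p, hp⟩))
      nlinarith
    · rw [bOf_prime π hp, hb1 p hp (hnd p hpM), norm_one]
  have hne : ∃ (κ : (ZMod M)ˣ) (x y : ℝ), 0 < y ∧ U κ x y ≠ 0 :=
    ⟨1, 0, 1, one_pos, by rw [hlink]; exact hg₀⟩
  have hnc := nonconst_of_small hD hne hsmall
  obtain ⟨χ, c, M₁, hCD, hk⟩ := hCo M (aOf π) (bOf π) U C a hD ha1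
    (fun p hp _ n => hrel p hp n) hnc
  have hMS : MSBound (Fermat.Agent.LT.H51.depleted M a) := hCD.msBound hk
  -- the depleted sequence
  set a' : ℕ → ℂ := Fermat.Agent.LT.H51.depleted M a with ha'
  have hap : ∀ p : ℕ, ∀ hp : p.Prime, ¬ p ∣ M → a' p = π.a (ratPrime ⟨p, hp⟩) := by
    intro p hp hpM
    have hcop : Nat.Coprime p M := (Nat.Prime.coprime_iff_not_dvd hp).mpr hpM
    rw [ha', Fermat.Agent.LT.H51.depleted_of_coprime M a hp.pos hcop]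
    have h := hrel p hp 1
    have hnd1 : ¬ p ∣ 1 := fun h1 => hp.one_lt.ne' (Nat.dvd_one.mp h1)
    rw [mul_one, if_neg hnd1, mul_zero, add_zero, ha1, mul_one, aOf_prime π hp] at h
    exact h
  have ha'1 : a' 1 = 1 := by
    rw [ha', Fermat.Agent.LT.H51.depleted_of_coprime M a one_pos (Nat.coprime_one_left M), ha1]
  have hT : ∀ p : ℕ, p.Prime → ¬ p ∣ M → ∀ n : ℕ,
      a' (p * n) + (if p ∣ n then a' (n / p) else 0) = a' p * a' n := by
    intro p hp hpM n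
    have hrel' : ∀ p : ℕ, p.Prime → ¬ p ∣ M → ∀ n : ℕ,
        a (p * n) + bOf π p * (if p ∣ n then a (n / p) else 0) = a p * a n := by
      intro q hq _ m
      have h := hrel q hq m
      have h1 := hrel q hq 1
      have hnd1 : ¬ q ∣ 1 := fun h2 => hq.one_lt.ne' (Nat.dvd_one.mp h2)
      rw [mul_one, if_neg hnd1, mul_zero, add_zero, ha1, mul_one] at h1
      rw [h1]
      exact h
    have h := Fermat.Agent.LT.H51.depleted_hecke M a (bOf π) hrel' p hp hpM n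
    rw [bOf_prime π hp, hb1 p hp (hnd p hpM), one_mul] at h
    exact h
  have hsub : ∀ p : ℕ, ¬ p ∣ 3 * M → ¬ p ∣ M := fun p h h' => h (Dvd.dvd.mul_left h' 3)
  refine parArith_weak ρ hyp.surj (finiteLevel_of_continuous ρ hyp.cont) M hM a' ha'1 hT ?_ ?_ hMS
  · intro p hp hpN A hA' σ hσ h1
    have hpM := hsub p hpN
    rw [hap p hp hpM, ha2 p hp (hnd p hpM) A hA' σ hσ h1]
    norm_num
  · intro p hp hpN A hA' σ hσ hdet
    have hpM := hsub p hpN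
    rw [hap p hp hpM]
    exact (hainert p hp (hnd p hpM) A hA' σ hσ hdet).1

end Fermat.Agent.LT.T8

end
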