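import Fermat.Agent.LT.T8.Partial

/-!
# Row LT, tower T8 (helper19, architect): STATE OF THE TOWER (pattern of `LT/T1/Closed.lean`)

OFF-MAIN.  Tower Prop = the wall leaf `WT.PAR556` of origin/helper556@0fa0be5a0, VERBATIM.

| leaf | closed by |
|---|---|
| T8.01 `H19.CentralEven556` | helper468 `centralEven556_h468` (other proofs: 768, 624, 84, 47) |
| T8.02 `HeckeSeqC` | helper47 `heckeSeqC47` |
| T8.03 `HoroCoeffC` | helper47 `horoCoeffC47` (on MS1 of helper51) |
| T8.05 MS1 `CoeffData.msBound` | helper51 |
| T8.06 `top` | helper19 (`LT/T8/Spec.lean`) |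

`top_of_open : Open → WT.PAR556`; `Open` lists the leaves still to be proved: `T8.HoroC` only
(adelic; sub-architect helper51, `LT/H51/MS4*.lean`; raw Hecke leaf closed by helper468).
-/

set_option autoImplicit false

namespace Fermat.Agent.LT.T8

/-- THE OPEN PART of tower T8: the leaves still to be proved. -/
structure Open : Prop where
  horoC : HoroC

/-- STATE OF THE TOWER: the open leaves give the wall leaf `PAR556`. -/
theorem top_of_open (O : Open) : Fermat.Agent.LT.H556.WT.PAR556 :=
  par556_of_horoC O.horoC

end Fermat.Agent.LT.T8
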