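import Fermat.Agent.LT.T8.Spec
import Fermat.Agent.LT.T8.H47.Leaves
import Fermat.Agent.LT.T8.H468.CentralEven

/-!
# Row LT, tower T8: integration (helper19, architect), OFF-MAIN

`par556_of_horoC : HoroC → WT.PAR556`: the tower T8 with its three closed sub-leaves plugged in
(`centralEven556_h468` of helper468, `heckeSeqC47` and `horoCoeffC47` of helper47; byte-identical
copies).  The tower is open in exactly one leaf, the adelic `T8.HoroC`.
-/

set_option autoImplicit false

namespace Fermat.Agent.LT.T8

/-- **T8 with the closed sub-leaves plugged in.** -/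
theorem par556_of_horoC (h : HoroC) : Fermat.Agent.LT.H556.WT.PAR556 :=
  top Fermat.Agent.LT.T8.H468.centralEven556_h468 Fermat.Agent.LT.T8.H47.heckeSeqC47 h
    Fermat.Agent.LT.T8.H47.horoCoeffC47

end Fermat.Agent.LT.T8
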